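import Mathlib
import Fermat.Agent.Lib.ValConj.Conj

/-!
# Row 38, WALL-p, (S4)/I6 instantiation leaf SHEETS — Mathlib-only core  (helper873)

`L` a field, `τ` a ring automorphism of finite order, `W, W'` valuation subrings of `L` with the
same `τ`-fixed elements (i.e. lying over the same valuation ring of the fixed field).  Then
`W' = τ ^ j • W` for some `j`.  This is `Lib/ValConj.exists_smul_eq_of_fixed_mem_iff` for the
cyclic group generated by `τ`.
-/

set_option autoImplicit false
set_option linter.style.haveILetI false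

open scoped Pointwise

namespace Fermat.Agent.Ribet.H873

variable {L : Type*} [Field L]

/-- **SHEETS, core (cyclic group of automorphisms).**  If `τ ^ n = 1`, `0 < n`, and `W`, `W'`
contain the same `τ`-fixed elements, then `W' = τ ^ j • W` for some `j < n` (pointwise action of
`RingAut L` on valuation subrings). -/
theorem exists_pow_smul_eq_of_fixed_mem_iff (τ : L ≃+* L) {n : ℕ} (hn : 0 < n) (hτ : τ ^ n = 1)
    (W W' : ValuationSubring L)
    (h : ∀ x : L, τ x = x → (x ∈ W ↔ x ∈ W')) :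
    ∃ j : ℕ, j < n ∧ (τ ^ j) • W = W' := by
  classical
  -- the cyclic group generated by `τ` is finite
  have hord : IsOfFinOrder τ := isOfFinOrder_iff_pow_eq_one.mpr ⟨n, hn, hτ⟩
  haveI hfin : Finite (Subgroup.zpowers τ) := (IsOfFinOrder.finite_zpowers hord).to_subtype
  -- fixed by the group iff fixed by `τ`
  have hfix : ∀ x : L, (∀ g : Subgroup.zpowers τ, g • x = x) → (x ∈ W ↔ x ∈ W') := by
    intro x hx
    exact h x (hx ⟨τ, Subgroup.mem_zpowers τ⟩)
  obtain ⟨g, hg⟩ := Fermat.Agent.Lib.ValConj.exists_smul_eq_of_fixed_mem_iff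
    (G := Subgroup.zpowers τ) W W' hfix
  obtain ⟨k, hk⟩ := Subgroup.mem_zpowers_iff.mp g.2
  -- reduce the exponent modulo `n`
  have hkn : τ ^ k = τ ^ (k % (n : ℤ)).toNat := by
    have hn' : (n : ℤ) ≠ 0 := by exact_mod_cast hn.ne'
    have hnn : 0 ≤ k % (n : ℤ) := Int.emod_nonneg k hn'
    have h1 : τ ^ k = τ ^ (k % (n : ℤ)) := by
      conv_lhs => rw [← Int.emod_add_mul_ediv k n]
      rw [zpow_add, zpow_mul, zpow_natCast, hτ, one_zpow, mul_one]
    rw [h1]
    conv_lhs => rw [← Int.toNat_of_nonneg hnn]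
    rw [zpow_natCast]
  refine ⟨(k % (n : ℤ)).toNat, ?_, ?_⟩
  · have hn' : (n : ℤ) ≠ 0 := by exact_mod_cast hn.ne'
    have hlt : k % (n : ℤ) < n := Int.emod_lt_of_pos k (by exact_mod_cast hn)
    have hnn : 0 ≤ k % (n : ℤ) := Int.emod_nonneg k hn'
    omega
  · rw [← hkn, hk]
    exact hg

/-- Elementwise form: `z ∈ W' ↔ (τ ^ j)⁻¹ z ∈ W`. -/
theorem exists_pow_forall_mem_iff (τ : L ≃+* L) {n : ℕ} (hn : 0 < n) (hτ : τ ^ n = 1)
    (W W' : ValuationSubring L)
    (h : ∀ x : L, τ x = x → (x ∈ W ↔ x ∈ W')) :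
    ∃ j : ℕ, j < n ∧ ∀ z : L, (τ ^ j) z ∈ W' ↔ z ∈ W := by
  obtain ⟨j, hj, hjW⟩ := exists_pow_smul_eq_of_fixed_mem_iff τ hn hτ W W' h
  refine ⟨j, hj, fun z => ?_⟩
  rw [← hjW]
  exact ValuationSubring.smul_mem_pointwise_smul_iff (g := τ ^ j) (S := W) (x := z)

end Fermat.Agent.Ribet.H873

namespace Fermat.Agent.Ribet.H873

section algEquiv

variable {F F' : Type*} [Field F] [Field F'] [Algebra F F']

omit [Algebra F F'] in
/-- Powers of the underlying ring automorphism of an algebra automorphism. -/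
theorem toRingEquiv_pow_apply {A : Type*} [CommSemiring A] [Algebra A F'] (τ : F' ≃ₐ[A] F')
    (j : ℕ) (z : F') : ((τ : F' ≃+* F') ^ j) z = (τ ^ j) z := by
  induction j generalizing z with
  | zero => rfl
  | succ j ih =>
    rw [pow_succ, pow_succ, RingAut.mul_apply, AlgEquiv.mul_apply]
    exact ih (τ z)

/-- Ring-automorphism form with an explicit description of the fixed elements: if every
`τ`-fixed element comes from `F` and `W`, `W'` induce the same valuation subring of `F`. -/
theorem exists_pow_forall_mem_iff_of_comap_eq (τ : F' ≃+* F') {n : ℕ} (hn : 0 < n)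
    (hτ : τ ^ n = 1) (hfix : ∀ x : F', τ x = x → ∃ y : F, algebraMap F F' y = x)
    (W W' : ValuationSubring F')
    (hWW' : W.comap (algebraMap F F') = W'.comap (algebraMap F F')) :
    ∃ j : ℕ, j < n ∧ ∀ z : F', (τ ^ j) z ∈ W' ↔ z ∈ W := by
  refine exists_pow_forall_mem_iff τ hn hτ W W' (fun x hx => ?_)
  obtain ⟨y, rfl⟩ := hfix x hx
  have h1 : algebraMap F F' y ∈ W ↔ y ∈ W.comap (algebraMap F F') := Iff.rfl
  have h2 : algebraMap F F' y ∈ W' ↔ y ∈ W'.comap (algebraMap F F') := Iff.rfl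
  rw [h1, h2, hWW']

/-- **SHEETS, Galois form.**  `F'/F` finite Galois with cyclic group generated by `τ`; two
valuation subrings of `F'` over the same valuation subring of `F` are conjugate under a power
of `τ`. -/
theorem exists_pow_forall_mem_iff_of_isGalois [FiniteDimensional F F'] [IsGalois F F']
    (τ : F' ≃ₐ[F] F') (hgen : ∀ σ : F' ≃ₐ[F] F', σ ∈ Subgroup.zpowers τ)
    (W W' : ValuationSubring F')
    (hWW' : W.comap (algebraMap F F') = W'.comap (algebraMap F F')) :
    ∃ j : ℕ, j < Module.finrank F F' ∧ ∀ z : F', (τ ^ j) z ∈ W' ↔ z ∈ W := by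
  have hn : 0 < Module.finrank F F' := Module.finrank_pos
  have hcard : Nat.card (F' ≃ₐ[F] F') = Module.finrank F F' := IsGalois.card_aut_eq_finrank F F'
  have hτn : τ ^ Module.finrank F F' = 1 := by
    rw [← hcard]; exact pow_card_eq_one'
  -- the underlying ring automorphism
  have hτ' : (τ : F' ≃+* F') ^ Module.finrank F F' = 1 := by
    ext z
    have := congrArg (fun σ : F' ≃ₐ[F] F' => σ z) hτn
    simpa using this
  have hfix : ∀ x : F', (τ : F' ≃+* F') x = x → ∃ y : F, algebraMap F F' y = x := by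
    intro x hx
    have hx' : τ x = x := hx
    have hall : ∀ σ : F' ≃ₐ[F] F', σ x = x := by
      intro σ
      obtain ⟨k, rfl⟩ := Subgroup.mem_zpowers_iff.mp (hgen σ)
      have hpow : ∀ m : ℕ, (τ ^ m) x = x := by
        intro m
        induction m with
        | zero => simp
        | succ m ih => rw [pow_succ, AlgEquiv.mul_apply, hx', ih]
      rcases Int.eq_nat_or_neg k with ⟨m, rfl | rfl⟩
      · rw [zpow_natCast]; exact hpow m
      · rw [zpow_neg, zpow_natCast]
        have := hpow m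
        calc (τ ^ m)⁻¹ x = (τ ^ m)⁻¹ ((τ ^ m) x) := by rw [this]
          _ = x := by
            rw [← AlgEquiv.mul_apply, inv_mul_cancel, AlgEquiv.one_apply]
    have hmem : x ∈ (⊥ : IntermediateField F F') :=
      (IsGalois.mem_bot_iff_fixed x).mpr hall
    obtain ⟨y, hy⟩ := IntermediateField.mem_bot.mp hmem
    exact ⟨y, hy⟩
  obtain ⟨j, hj, hjz⟩ :=
    exists_pow_forall_mem_iff_of_comap_eq (τ : F' ≃+* F') hn hτ' hfix W W' hWW'
  refine ⟨j, hj, fun z => ?_⟩
  have e : ((τ : F' ≃+* F') ^ j) z = (τ ^ j) z := toRingEquiv_pow_apply τ j z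
  rw [← e]
  exact hjz z

end algEquiv

end Fermat.Agent.Ribet.H873
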