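import Fermat.Agent.Ribet.H704.I6Inst
import Fermat.Agent.Ribet.H873.Sheets

/-!
# Row 38, WALL-p, (S4)/I6: leaf SHEETS = `H704.I6.SheetsStatement`, VERBATIM  (helper873)

`F'/F` finite Galois with cyclic group generated by `τ`; two branches `(R₁, 𝔮₁, π₁)`,
`(R₂, 𝔮₂, π₂)` of `F'` (every nonzero element has a valuation `ValAt`) with the same uniformiser
`ϖ ∈ F` and the same restriction to `F`.  Then `ValAt₂ u v ↔ ValAt₁ (τ ^ j u) v` for some `j`.

Proof: a branch defines a valuation subring `valRing` of `F'` (`u = 0` or `ValAt u v` with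
`0 ≤ v`); the two valuation subrings have the same intersection with `F`, so they are conjugate
under a power of `τ` (`H873.exists_pow_forall_mem_iff_of_isGalois`, i.e. `Lib/ValConj`);
`ValAt u v` is recovered from the valuation subring as "`u · ϖ ^ (-v)` is a unit".
-/

set_option autoImplicit false
set_option linter.style.haveILetI false

namespace Fermat.Agent.Ribet.H873

open Fermat.Agent.Ribet.H704.I6

section branch

variable {R : Type*} [CommRing R] {K : Type*} [Field K] [Algebra R K] [IsFractionRing R K]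
variable {𝔮 : Ideal R} {π : R}

omit [IsFractionRing R K] in
theorem valAt_one (h𝔮 : 𝔮.IsPrime) : ValAt K 𝔮 π (1 : K) 0 := by
  have h1 : (1 : R) ∉ 𝔮 := fun h => h𝔮.ne_top ((Ideal.eq_top_iff_one 𝔮).mpr h)
  exact ⟨1, 1, h1, h1, by simp⟩

omit [IsFractionRing R K] in
theorem valAt_mul (h𝔮 : 𝔮.IsPrime) {u u' : K} {v v' : ℤ} (hπ0 : algebraMap R K π ≠ 0)
    (h : ValAt K 𝔮 π u v) (h' : ValAt K 𝔮 π u' v') : ValAt K 𝔮 π (u * u') (v + v') := by
  obtain ⟨a, b, ha, hb, hab⟩ := h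
  obtain ⟨a', b', ha', hb', hab'⟩ := h'
  refine ⟨a * a', b * b', fun hmem => ?_, fun hmem => ?_, ?_⟩
  · rcases h𝔮.mem_or_mem hmem with h1 | h1
    · exact ha h1
    · exact ha' h1
  · rcases h𝔮.mem_or_mem hmem with h1 | h1
    · exact hb h1
    · exact hb' h1
  · rw [map_mul, map_mul, zpow_add₀ hπ0]
    calc u * u' * (algebraMap R K b * algebraMap R K b')
        = (u * algebraMap R K b) * (u' * algebraMap R K b') := by ring
      _ = _ := by rw [hab, hab']; ring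

omit [IsFractionRing R K] in
theorem valAt_neg {u : K} {v : ℤ} (h : ValAt K 𝔮 π u v) : ValAt K 𝔮 π (-u) v := by
  obtain ⟨a, b, ha, hb, hab⟩ := h
  refine ⟨-a, b, fun hmem => ha (by simpa using 𝔮.neg_mem hmem), hb, ?_⟩
  rw [map_neg, neg_mul, hab, mul_neg]

theorem valAt_inv {u : K} {v : ℤ} (hu : u ≠ 0) (h : ValAt K 𝔮 π u v) :
    ValAt K 𝔮 π u⁻¹ (-v) := by
  obtain ⟨a, b, ha, hb, hab⟩ := h
  have hinj := IsFractionRing.injective R K
  have hb0 : algebraMap R K b ≠ 0 := by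
    intro h0
    apply hb
    have : b = 0 := hinj (by rw [h0, map_zero])
    rw [this]; exact 𝔮.zero_mem
  have hπv : (algebraMap R K π) ^ v ≠ 0 := by
    intro h0
    rw [h0, zero_mul] at hab
    exact (mul_ne_zero hu hb0) hab
  refine ⟨b, a, hb, ha, ?_⟩
  rw [zpow_neg]
  field_simp
  rw [hab]; ring

/-- Uniqueness of the valuation. -/
theorem valAt_unique (h𝔮 : 𝔮.IsPrime) (hπ : π ∈ 𝔮) {u : K} (hu : u ≠ 0) {v v' : ℤ}
    (h : ValAt K 𝔮 π u v) (h' : ValAt K 𝔮 π u v') : v = v' := by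
  have hinj := IsFractionRing.injective R K
  -- it suffices to exclude `v < v'`, symmetric
  have key : ∀ {v v' : ℤ}, ValAt K 𝔮 π u v → ValAt K 𝔮 π u v' → ¬ v < v' := by
    intro v v' h h' hlt
    obtain ⟨a, b, ha, hb, hab⟩ := h
    obtain ⟨a', b', ha', hb', hab'⟩ := h'
    have hb0 : algebraMap R K b ≠ 0 := by
      intro h0
      apply hb
      have : b = 0 := hinj (by rw [h0, map_zero])
      rw [this]; exact 𝔮.zero_mem
    have hπv : (algebraMap R K π) ^ v ≠ 0 := by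
      intro h0
      rw [h0, zero_mul] at hab
      exact (mul_ne_zero hu hb0) hab
    obtain ⟨n, hn⟩ : ∃ n : ℕ, v' = v + (n + 1 : ℕ) :=
      ⟨(v' - v - 1).toNat, by
        have : 0 ≤ v' - v - 1 := by omega
        have h2 := Int.toNat_of_nonneg this
        push_cast
        omega⟩
    have hπ0 : algebraMap R K π ≠ 0 := by
      intro h0
      rw [hn, h0] at hab'
      by_cases hv0 : v = 0
      · subst hv0
        rw [zero_add, zpow_natCast, zero_pow (Nat.succ_ne_zero n), zero_mul] at hab'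
        have hb0' : algebraMap R K b' ≠ 0 := by
          intro h0'
          apply hb'
          have : b' = 0 := hinj (by rw [h0', map_zero])
          rw [this]; exact 𝔮.zero_mem
        exact (mul_ne_zero hu hb0') hab'
      · rw [h0, zero_zpow v hv0] at hπv
        exact hπv rfl
    -- `a * b' = π ^ (n+1) * a' * b` in `R`
    have hK : algebraMap R K (a * b') = algebraMap R K (π ^ (n + 1) * a' * b) := by
      have e1 : u * algebraMap R K b * algebraMap R K b' =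
          (algebraMap R K π) ^ v * algebraMap R K a * algebraMap R K b' := by rw [hab]
      have e2 : u * algebraMap R K b' * algebraMap R K b =
          (algebraMap R K π) ^ v' * algebraMap R K a' * algebraMap R K b := by rw [hab']
      have e3 : (algebraMap R K π) ^ v * algebraMap R K a * algebraMap R K b' =
          (algebraMap R K π) ^ v' * algebraMap R K a' * algebraMap R K b := by
        rw [← e1, ← e2]; ring
      rw [hn, zpow_add₀ hπ0, zpow_natCast] at e3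
      have e4 : (algebraMap R K π) ^ v * (algebraMap R K a * algebraMap R K b') =
          (algebraMap R K π) ^ v *
            ((algebraMap R K π) ^ (n + 1) * algebraMap R K a' * algebraMap R K b) := by
        rw [← mul_assoc, e3]; ring
      have e5 := mul_left_cancel₀ hπv e4
      rw [map_mul, map_mul, map_mul, map_pow]
      exact e5
    have hR : a * b' = π ^ (n + 1) * a' * b := hinj hK
    have hmem : a * b' ∈ 𝔮 := by
      rw [hR, mul_assoc]
      exact 𝔮.mul_mem_right _ (Ideal.pow_mem_of_mem 𝔮 hπ (n + 1) (Nat.succ_pos n))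
    rcases h𝔮.mem_or_mem hmem with h1 | h1
    · exact ha h1
    · exact hb' h1
  rcases lt_trichotomy v v' with hlt | heq | hgt
  · exact absurd hlt (key h h')
  · exact heq
  · exact absurd hgt (key h' h)

/-- A nonzero element of valuation `v` with `π ≠ 0`: the witnesses are nonzero. -/
theorem algebraMap_ne_zero_of_notMem {b : R} (hb : b ∉ 𝔮) : algebraMap R K b ≠ 0 := by
  intro h0
  apply hb
  have : b = 0 := IsFractionRing.injective R K (by rw [h0, map_zero])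
  rw [this]; exact 𝔮.zero_mem

/-- Nonnegativity of the valuation of a sum. -/
theorem valAt_add_nonneg (h𝔮 : 𝔮.IsPrime) (hπ : π ∈ 𝔮) (hπ0 : algebraMap R K π ≠ 0)
    {u u' : K} {v v' w : ℤ} (hv : 0 ≤ v) (hv' : 0 ≤ v')
    (h : ValAt K 𝔮 π u v) (h' : ValAt K 𝔮 π u' v') (hw : ValAt K 𝔮 π (u + u') w) :
    0 ≤ w := by
  by_contra hneg
  rw [not_le] at hneg
  obtain ⟨a, b, ha, hb, hab⟩ := h
  obtain ⟨a', b', ha', hb', hab'⟩ := h'
  obtain ⟨a'', b'', ha'', hb'', hab''⟩ := hw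
  obtain ⟨n, rfl⟩ := Int.eq_ofNat_of_zero_le hv
  obtain ⟨n', rfl⟩ := Int.eq_ofNat_of_zero_le hv'
  obtain ⟨m, hm⟩ : ∃ m : ℕ, w = -((m + 1 : ℕ) : ℤ) :=
    ⟨(-w - 1).toNat, by
      have : 0 ≤ -w - 1 := by omega
      have h2 := Int.toNat_of_nonneg this
      push_cast
      omega⟩
  rw [zpow_natCast] at hab hab'
  have hinj := IsFractionRing.injective R K
  have hK : algebraMap R K (a'' * b * b') =
      algebraMap R K (π ^ (m + 1) * (π ^ n * a * b' + π ^ n' * a' * b) * b'') := by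
    have e1 : (u + u') * algebraMap R K b'' * (algebraMap R K b * algebraMap R K b') =
        (u * algebraMap R K b) * algebraMap R K b' * algebraMap R K b'' +
        (u' * algebraMap R K b') * algebraMap R K b * algebraMap R K b'' := by ring
    rw [hab, hab', hab'', hm, zpow_neg, zpow_natCast] at e1
    have hπm : (algebraMap R K π) ^ (m + 1) ≠ 0 := pow_ne_zero _ hπ0
    simp only [map_mul, map_add, map_pow]
    field_simp at e1
    linear_combination e1
  have hR := hinj hK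
  have hmem : a'' * b * b' ∈ 𝔮 := by
    rw [hR, mul_assoc, mul_assoc]
    exact 𝔮.mul_mem_right _ (Ideal.pow_mem_of_mem 𝔮 hπ (m + 1) (Nat.succ_pos m))
  rcases h𝔮.mem_or_mem hmem with h1 | h1
  · rcases h𝔮.mem_or_mem h1 with h2 | h2
    · exact ha'' h2
    · exact hb h2
  · exact hb' h1

/-- The valuation subring of a branch. -/
def valRing (h𝔮 : 𝔮.IsPrime) (hπ : π ∈ 𝔮) (hπ0 : algebraMap R K π ≠ 0)
    (hex : ∀ u : K, u ≠ 0 → ∃ v : ℤ, ValAt K 𝔮 π u v) : ValuationSubring K where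
  carrier := {u | u = 0 ∨ ∃ v : ℤ, 0 ≤ v ∧ ValAt K 𝔮 π u v}
  mul_mem' := by
    rintro u u' (rfl | ⟨v, hv, h⟩) (rfl | ⟨v', hv', h'⟩)
    · exact Or.inl (zero_mul _)
    · exact Or.inl (zero_mul _)
    · exact Or.inl (mul_zero _)
    · exact Or.inr ⟨v + v', add_nonneg hv hv', valAt_mul h𝔮 hπ0 h h'⟩
  one_mem' := Or.inr ⟨0, le_rfl, valAt_one h𝔮⟩
  add_mem' := by
    rintro u u' hu hu'
    by_cases hs : u + u' = 0
    · exact Or.inl hs
    rcases hu with rfl | ⟨v, hv, h⟩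
    · rw [zero_add]; exact hu'
    rcases hu' with rfl | ⟨v', hv', h'⟩
    · rw [add_zero]; exact Or.inr ⟨v, hv, h⟩
    obtain ⟨w, hw⟩ := hex _ hs
    exact Or.inr ⟨w, valAt_add_nonneg h𝔮 hπ hπ0 hv hv' h h' hw, hw⟩
  zero_mem' := Or.inl rfl
  neg_mem' := by
    rintro u (rfl | ⟨v, hv, h⟩)
    · exact Or.inl neg_zero
    · exact Or.inr ⟨v, hv, valAt_neg h⟩
  mem_or_inv_mem' := by
    intro u
    by_cases hu : u = 0
    · exact Or.inl (Or.inl hu)
    obtain ⟨v, hv⟩ := hex u hu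
    rcases le_total 0 v with h0 | h0
    · exact Or.inl (Or.inr ⟨v, h0, hv⟩)
    · exact Or.inr (Or.inr ⟨-v, by omega, valAt_inv hu hv⟩)

theorem mem_valRing_iff (h𝔮 : 𝔮.IsPrime) (hπ : π ∈ 𝔮) (hπ0 : algebraMap R K π ≠ 0)
    (hex : ∀ u : K, u ≠ 0 → ∃ v : ℤ, ValAt K 𝔮 π u v) {u : K} :
    u ∈ valRing h𝔮 hπ hπ0 hex ↔ u = 0 ∨ ∃ v : ℤ, 0 ≤ v ∧ ValAt K 𝔮 π u v := Iff.rfl

/-- `ValAt u 0` iff `u` is a unit of the valuation subring. -/
theorem valAt_zero_iff (h𝔮 : 𝔮.IsPrime) (hπ : π ∈ 𝔮) (hπ0 : algebraMap R K π ≠ 0)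
    (hex : ∀ u : K, u ≠ 0 → ∃ v : ℤ, ValAt K 𝔮 π u v) {u : K} (hu : u ≠ 0) :
    ValAt K 𝔮 π u 0 ↔ u ∈ valRing h𝔮 hπ hπ0 hex ∧ u⁻¹ ∈ valRing h𝔮 hπ hπ0 hex := by
  constructor
  · intro h
    refine ⟨Or.inr ⟨0, le_rfl, h⟩, Or.inr ⟨0, le_rfl, ?_⟩⟩
    have := valAt_inv hu h
    rwa [neg_zero] at this
  · rintro ⟨h1, h2⟩
    rcases h1 with h1 | ⟨v, hv, h1⟩
    · exact absurd h1 hu
    rcases h2 with h2 | ⟨v', hv', h2⟩
    · exact absurd h2 (inv_ne_zero hu)
    have h3 := valAt_inv (inv_ne_zero hu) h2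
    rw [inv_inv] at h3
    have := valAt_unique h𝔮 hπ hu h1 h3
    have hv0 : v = 0 := by omega
    rw [hv0] at h1
    exact h1

omit [IsFractionRing R K] in
/-- Shifting by a power of the uniformiser. -/
theorem valAt_iff_valAt_zero (hπ0 : algebraMap R K π ≠ 0) {u : K} {v : ℤ} :
    ValAt K 𝔮 π u v ↔ ValAt K 𝔮 π (u * (algebraMap R K π) ^ (-v)) 0 := by
  have hπv : (algebraMap R K π) ^ v ≠ 0 := zpow_ne_zero _ hπ0
  constructor
  · rintro ⟨a, b, ha, hb, hab⟩
    refine ⟨a, b, ha, hb, ?_⟩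
    rw [zpow_zero, one_mul, zpow_neg]
    field_simp
    rw [hab]
  · rintro ⟨a, b, ha, hb, hab⟩
    refine ⟨a, b, ha, hb, ?_⟩
    rw [zpow_zero, one_mul, zpow_neg] at hab
    field_simp at hab
    rw [hab]

/-- Degenerate case `π = 0`: only the valuation `0` occurs. -/
theorem valAt_iff_eq_zero_of_map_eq_zero (hπ0 : algebraMap R K π = 0)
    (hex : ∀ u : K, u ≠ 0 → ∃ v : ℤ, ValAt K 𝔮 π u v) {u : K} (hu : u ≠ 0) {v : ℤ} :
    ValAt K 𝔮 π u v ↔ v = 0 := by
  have key : ∀ w : ℤ, ValAt K 𝔮 π u w → w = 0 := by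
    rintro w ⟨a, b, ha, hb, hab⟩
    by_contra hw
    rw [hπ0, zero_zpow w hw, zero_mul] at hab
    exact (mul_ne_zero hu (algebraMap_ne_zero_of_notMem hb)) hab
  constructor
  · exact key v
  · rintro rfl
    obtain ⟨w, hw⟩ := hex u hu
    have := key w hw
    rw [this] at hw
    exact hw

end branch

/-- **SHEETS** (`H704.I6.SheetsStatement`, verbatim). -/
theorem sheets : SheetsStatement := by
  intro F F' _ _ _ _ _ τ hgen R₁ R₂ _ _ _ _ _ _ 𝔮₁ 𝔮₂ π₁ π₂ ϖ hπ₁ hπ₂ h𝔮₁ h𝔮₂ hm₁ hm₂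
    hex₁ hex₂ hagree
  by_cases hϖ : algebraMap F F' ϖ = 0
  · -- degenerate case: all valuations are `0`
    refine ⟨0, fun u v hu => ?_⟩
    rw [pow_zero, AlgEquiv.one_apply,
      valAt_iff_eq_zero_of_map_eq_zero (hπ₂.trans hϖ) hex₂ hu,
      valAt_iff_eq_zero_of_map_eq_zero (hπ₁.trans hϖ) hex₁ hu]
  · have hπ₁0 : algebraMap R₁ F' π₁ ≠ 0 := by rw [hπ₁]; exact hϖ
    have hπ₂0 : algebraMap R₂ F' π₂ ≠ 0 := by rw [hπ₂]; exact hϖ
    -- the two valuation subrings
    set W₁ : ValuationSubring F' := valRing h𝔮₁ hm₁ hπ₁0 hex₁ with hW₁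
    set W₂ : ValuationSubring F' := valRing h𝔮₂ hm₂ hπ₂0 hex₂ with hW₂
    have hcomap : W₂.comap (algebraMap F F') = W₁.comap (algebraMap F F') := by
      ext a
      rw [ValuationSubring.mem_comap, ValuationSubring.mem_comap, hW₁, hW₂, mem_valRing_iff,
        mem_valRing_iff]
      by_cases ha : a = 0
      · subst ha
        simp
      · constructor
        · rintro (h0 | ⟨v, hv, h⟩)
          · exact Or.inl h0
          · exact Or.inr ⟨v, hv, (hagree a v ha).mpr h⟩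
        · rintro (h0 | ⟨v, hv, h⟩)
          · exact Or.inl h0
          · exact Or.inr ⟨v, hv, (hagree a v ha).mp h⟩
    have hgen' : ∀ σ : F' ≃ₐ[F] F', σ ∈ Subgroup.zpowers τ := by
      intro σ
      obtain ⟨j, rfl⟩ := hgen σ
      exact Subgroup.pow_mem _ (Subgroup.mem_zpowers τ) j
    obtain ⟨j, -, hj⟩ := exists_pow_forall_mem_iff_of_isGalois τ hgen' W₂ W₁ hcomap
    refine ⟨j, fun u v hu => ?_⟩
    have hτu : (τ ^ j) u ≠ 0 := by
      intro h0
      apply hu
      exact (map_eq_zero_iff (τ ^ j) (τ ^ j).injective).mp h0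
    -- the shifted elements
    have hshift : (τ ^ j) (u * (algebraMap F F' ϖ) ^ (-v)) =
        (τ ^ j) u * (algebraMap F F' ϖ) ^ (-v) := by
      rw [map_mul, map_zpow₀, AlgEquiv.commutes]
    have hne : u * (algebraMap F F' ϖ) ^ (-v) ≠ 0 := mul_ne_zero hu (zpow_ne_zero _ hϖ)
    have hne' : (τ ^ j) u * (algebraMap F F' ϖ) ^ (-v) ≠ 0 :=
      mul_ne_zero hτu (zpow_ne_zero _ hϖ)
    rw [valAt_iff_valAt_zero hπ₂0, valAt_iff_valAt_zero hπ₁0 (u := (τ ^ j) u), hπ₁, hπ₂,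
      valAt_zero_iff h𝔮₂ hm₂ hπ₂0 hex₂ hne, valAt_zero_iff h𝔮₁ hm₁ hπ₁0 hex₁ hne', ← hshift,
      ← hW₁, ← hW₂, hj, ← map_inv₀, hj]

end Fermat.Agent.Ribet.H873
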