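import Fermat.Agent.S36.H438.Unit
import Fermat.Agent.A2.Mod.H708.Vinf

/-!
# RIBET wall-p, I6 instantiation leaf INST-B (helper873): the modular unit pair in the charts of
# `A2/Mod`, normalised for `I6.IsUnitPair`

Setting of `A2/Mod/Spec.lean`: level `N = M q`, `F_{N,E} = FE E N`, `x = j j_q`,
`B = chartAlg P E N x` (integral closure of `R_E[x]`), `V∞` (`IsVinf`), `W` (`IsFricke`),
`V₀ = V∞.comap W`, `p₁ = B ∩ w V∞`, `p₂ = B ∩ w V₀` (`A2.Mod.IsCut`).

The modular input is helper438's `S36.H438.mu_package` (on main):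
`Δ(t)/Δ(t^q)` and `q¹² Δ(t^q)/Δ(t)` lie in `B`, the first is a unit of `V∞`, the second a unit of
`V₀`.  Here:

* `unitPair873`            : `D, D' ∈ B`, `D D' = q¹²`, `D ∉ w V∞`, `D' ∉ w V₀`;
* `exists_unitPair873`     : normalised, `D D' = w ^ (12 e)` where `q ε = w ^ e` in `R_E`
                             (`ε` a unit, `e ≥ 1` the ramification index);
* `exists_unitPair_cut873` : the same with `D ∉ p₁`, `D' ∉ p₂` (input of
                             `H873.isUnitPair_locAt873`, `H873.hasNodeUnitPair_of_chart873`).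
-/

set_option autoImplicit false
set_option synthInstance.maxHeartbeats 400000
set_option maxHeartbeats 1600000
set_option linter.unusedSectionVars false

noncomputable section

namespace Fermat.Agent.Ribet.H873

open ModularCurve HahnSeries
open Fermat.Agent.A2.Mod

variable {P : ValuationSubring Qb} {E : IntermediateField ℚ Qb}

/-- `w⁻¹ ∉ V∞`. -/
theorem cE_inv_not_mem873 {N : ℕ} (hdvr : IsDiscreteValuationRing (RE P E)) {w : RE P E}
    (hw : Irreducible w) {V : ValuationSubring (FE E N)} (hV : IsVinf P E N V) :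
    (cE P E N w)⁻¹ ∉ V := by
  haveI := hdvr
  intro h2
  have hw0 : (w : E) ≠ 0 := fun h0 => hw.ne_zero (Subtype.ext h0)
  have h3 : (cE P E N w)⁻¹ = algebraMap E (FE E N) ((w : E)⁻¹) := by
    rw [cE, map_inv₀]
  rw [h3] at h2
  have h4 : (w : E)⁻¹ ∈ RE P E :=
    (Fermat.Agent.A2.Mod.H708.algebraMap_mem_iff_of_isVinf hV _).mp h2
  refine hw.not_isUnit (IsUnit.of_mul_eq_one (⟨(w : E)⁻¹, h4⟩ : RE P E) ?_)
  exact Subtype.ext (mul_inv_cancel₀ hw0)

/-- `w⁻¹ ∉ V₀ = V∞ ∘ W`. -/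
theorem cE_inv_not_mem_comap873 {N : ℕ} (hdvr : IsDiscreteValuationRing (RE P E)) {w : RE P E}
    (hw : Irreducible w) {V : ValuationSubring (FE E N)} (hV : IsVinf P E N V)
    (W : FE E N ≃ₐ[E] FE E N) : (cE P E N w)⁻¹ ∉ V.comap (W : FE E N →+* FE E N) := by
  intro h
  have h1 : W ((cE P E N w)⁻¹) ∈ V := h
  rw [map_inv₀, cE, AlgEquiv.commutes] at h1
  exact cE_inv_not_mem873 hdvr hw hV h1

/-- a unit of a valuation ring `V'` not containing `w⁻¹` does not lie in `w V'`. -/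
theorem not_inW_of_inv_mem873 {N : ℕ} {w : RE P E} {V' : ValuationSubring (FE E N)}
    (hw : (cE P E N w)⁻¹ ∉ V') {f : FE E N} (hf0 : f ≠ 0) (hf : f⁻¹ ∈ V') :
    ¬ InW P E N V' w f := by
  intro h
  apply hw
  have h1 : (cE P E N w)⁻¹ = f⁻¹ * (f * (cE P E N w)⁻¹) := by
    rw [← mul_assoc, inv_mul_cancel₀ hf0, one_mul]
  rw [h1]
  exact V'.mul_mem _ _ hf h

variable {M q : ℕ} [NeZero M] [NeZero q]

/-- **INST-B, modular form.**  In the setting of `A2/Mod` (level `Mq`, `q` prime, `R_E` a DVR with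
uniformiser `w`) there are `D, D'` in the chart `B = chartAlg x` of the coordinate `x = j j_q`
with `D D' = q¹²`, `D ∉ w V∞` and `D' ∉ w V₀` (`V₀ = V∞ ∘ W`):
`D = Δ(t)/Δ(t^q)`, `D' = q¹² Δ(t^q)/Δ(t)`. -/
theorem unitPair873 {w : RE P E} (hS : Setting P E M q w)
    {V : ValuationSubring (FE E (M * q))} {W : FE E (M * q) ≃ₐ[E] FE E (M * q)}
    (hV : IsVinf P E (M * q) V) (hW : IsFricke E (M * q) W) :
    ∃ D D' : FE E (M * q),
      D ∈ chartAlg P E (M * q) (xE E M q) ∧ D' ∈ chartAlg P E (M * q) (xE E M q) ∧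
      D * D' = cE P E (M * q) ((q : RE P E) ^ 12) ∧
      ¬ InW P E (M * q) V w D ∧
      ¬ InW P E (M * q) (V.comap (W : FE E (M * q) →+* FE E (M * q))) w D' := by
  obtain ⟨D', D, -, -, hmul, hD', hD, hVu, hV0u, -⟩ :=
    Fermat.Agent.S36.H438.mu_package P E M q hS.q_prime
  have hc0 : algebraMap E (FE E (M * q)) ((q : E) ^ 12) ≠ 0 := by
    rw [Ne, map_eq_zero]
    exact pow_ne_zero 12 (Nat.cast_ne_zero.mpr (NeZero.ne q))
  have hD0 : D ≠ 0 := by
    rintro rfl
    rw [mul_zero] at hmul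
    exact hc0 hmul.symm
  have hD'0 : D' ≠ 0 := by
    rintro rfl
    rw [zero_mul] at hmul
    exact hc0 hmul.symm
  refine ⟨D, D', hD, hD', ?_, ?_, ?_⟩
  · rw [mul_comm D D', hmul, cE]
    congr 1
  · exact not_inW_of_inv_mem873 (cE_inv_not_mem873 hS.dvr hS.unif hV) hD0 (hVu V hV).2
  · exact not_inW_of_inv_mem873 (cE_inv_not_mem_comap873 hS.dvr hS.unif hV W) hD'0
      (hV0u V W hV hW).2

/-- `q` is not a unit of `R_E`. -/
theorem not_isUnit_natCast873 (hP : P.LiesOverPrime q) : ¬ IsUnit ((q : ℕ) : RE P E) := by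
  intro hu
  obtain ⟨d, hd⟩ := hu.exists_right_inv
  have h1 : (q : Qb) * ((d : E) : Qb) = 1 := by
    have h2 := congrArg (fun r : RE P E => (((r : RE P E) : E) : Qb)) hd
    simpa using h2
  have hdP : ((d : E) : Qb) ∈ P := d.2
  have h3 : P.valuation (q : Qb) < 1 := (ValuationSubring.mem_nonunits_iff (A := P)).mp hP
  have h4 : P.valuation ((d : E) : Qb) ≤ 1 := (P.valuation_le_one_iff _).mpr hdP
  have h5 := congrArg P.valuation h1
  rw [map_mul, map_one] at h5
  have h6 : P.valuation (q : Qb) * P.valuation ((d : E) : Qb) < 1 := by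
    calc P.valuation (q : Qb) * P.valuation ((d : E) : Qb)
        ≤ P.valuation (q : Qb) * 1 := mul_le_mul_right h4 _
      _ = P.valuation (q : Qb) := mul_one _
      _ < 1 := h3
  rw [h5] at h6
  exact lt_irrefl _ h6

/-- **INST-B, normalised.**  With `q ε = w ^ e` in `R_E` (`ε` a unit, `e ≥ 1` the ramification
index): elements `D, D'` of the chart `B` with `D · D' = w ^ (12 e)`, `D ∉ w V∞`, `D' ∉ w V₀`. -/
theorem exists_unitPair873 {w : RE P E} (hS : Setting P E M q w)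
    {V : ValuationSubring (FE E (M * q))} {W : FE E (M * q) ≃ₐ[E] FE E (M * q)}
    (hV : IsVinf P E (M * q) V) (hW : IsFricke E (M * q) W) :
    ∃ (e : ℕ) (D D' : chartAlg P E (M * q) (xE E M q)), 0 < e ∧
      Associated ((q : ℕ) : RE P E) (w ^ e) ∧
      D * D' = algebraMap (RE P E) (chartAlg P E (M * q) (xE E M q)) w ^ (12 * e) ∧
      ¬ InW P E (M * q) V w (D : FE E (M * q)) ∧
      ¬ InW P E (M * q) (V.comap (W : FE E (M * q) →+* FE E (M * q))) w
        (D' : FE E (M * q)) := by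
  haveI := hS.dvr
  obtain ⟨D₀, D₀', hD, hD', hmul, hDV, hD'V⟩ := unitPair873 hS hV hW
  have hq0 : ((q : ℕ) : RE P E) ≠ 0 := Nat.cast_ne_zero.mpr (NeZero.ne q)
  obtain ⟨e, he⟩ := IsDiscreteValuationRing.associated_pow_irreducible hq0 hS.unif
  have he0 : 0 < e := by
    rcases Nat.eq_zero_or_pos e with h0 | h0
    · exfalso
      rw [h0, pow_zero] at he
      exact not_isUnit_natCast873 hS.lies_over (he.symm.isUnit_iff.mp isUnit_one)
    · exact h0
  obtain ⟨ε, hε⟩ := he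
  -- `q * ε = w ^ e`
  set B := chartAlg P E (M * q) (xE E M q) with hB
  refine ⟨e, ⟨D₀, hD⟩, algebraMap (RE P E) B ((ε : RE P E) ^ 12) * ⟨D₀', hD'⟩,
    he0, ⟨ε, hε⟩, ?_, hDV, ?_⟩
  · apply Subtype.ext
    show D₀ * (algebraMap (RE P E) (FE E (M * q)) ((ε : RE P E) ^ 12) * D₀') =
      (algebraMap (RE P E) (FE E (M * q)) w) ^ (12 * e)
    have hcE : cE P E (M * q) ((q : RE P E) ^ 12) =
        algebraMap (RE P E) (FE E (M * q)) ((q : RE P E) ^ 12) := rfl
    rw [mul_left_comm, hmul, hcE, ← map_mul, ← map_pow]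
    congr 1
    rw [pow_mul', ← hε]
    ring
  · intro h
    apply hD'V
    -- divide by the unit `ε ^ 12`
    have hεV : algebraMap (RE P E) (FE E (M * q)) (((ε⁻¹ : (RE P E)ˣ) : RE P E) ^ 12) ∈
        V.comap (W : FE E (M * q) →+* FE E (M * q)) := by
      rw [ValuationSubring.mem_comap]
      have h1 : (W : FE E (M * q) →+* FE E (M * q))
          (algebraMap (RE P E) (FE E (M * q)) (((ε⁻¹ : (RE P E)ˣ) : RE P E) ^ 12)) =
          algebraMap E (FE E (M * q)) ((((ε⁻¹ : (RE P E)ˣ) : RE P E) ^ 12 : RE P E) : E) :=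
        W.commutes _
      rw [h1]
      exact (Fermat.Agent.A2.Mod.H708.algebraMap_mem_iff_of_isVinf hV _).mpr (Subtype.mem _)
    have h2 := (V.comap (W : FE E (M * q) →+* FE E (M * q))).mul_mem _ _ hεV h
    have h3 : algebraMap (RE P E) (FE E (M * q)) (((ε⁻¹ : (RE P E)ˣ) : RE P E) ^ 12) *
        (((algebraMap (RE P E) B ((ε : RE P E) ^ 12) * ⟨D₀', hD'⟩ : B) : FE E (M * q)) *
          (cE P E (M * q) w)⁻¹) = D₀' * (cE P E (M * q) w)⁻¹ := by
      have h4 : algebraMap (RE P E) (FE E (M * q)) (((ε⁻¹ : (RE P E)ˣ) : RE P E) ^ 12) *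
          algebraMap (RE P E) (FE E (M * q)) ((ε : RE P E) ^ 12) = 1 := by
        rw [← map_mul, ← mul_pow, Units.inv_mul, one_pow, map_one]
      show algebraMap (RE P E) (FE E (M * q)) (((ε⁻¹ : (RE P E)ˣ) : RE P E) ^ 12) *
        ((algebraMap (RE P E) (FE E (M * q)) ((ε : RE P E) ^ 12) * D₀') *
          (cE P E (M * q) w)⁻¹) = _
      rw [← mul_assoc, ← mul_assoc, h4, one_mul]
    rw [h3] at h2
    exact h2

/-- **INST-B, cut form** (the form consumed together with `H873.isUnitPair_locAt873`): for the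
components `p₁ = B ∩ w V∞`, `p₂ = B ∩ w V₀` of the chart `B = chartAlg x` (`A2/Mod/Asm.IsCut`):
`D · D' = w ^ (12 e)`, `D ∉ p₁`, `D' ∉ p₂`. -/
theorem exists_unitPair_cut873 {w : RE P E} (hS : Setting P E M q w)
    {V : ValuationSubring (FE E (M * q))} {W : FE E (M * q) ≃ₐ[E] FE E (M * q)}
    (hV : IsVinf P E (M * q) V) (hW : IsFricke E (M * q) W)
    (p₁ p₂ : Ideal (chartAlg P E (M * q) (xE E M q)))
    (hc₁ : IsCut P E (M * q) w V (chartAlg P E (M * q) (xE E M q)) p₁)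
    (hc₂ : IsCut P E (M * q) w (V.comap (W : FE E (M * q) →+* FE E (M * q)))
      (chartAlg P E (M * q) (xE E M q)) p₂) :
    ∃ (e : ℕ) (D D' : chartAlg P E (M * q) (xE E M q)), 0 < e ∧
      Associated ((q : ℕ) : RE P E) (w ^ e) ∧
      D * D' = algebraMap (RE P E) (chartAlg P E (M * q) (xE E M q)) w ^ (12 * e) ∧
      D ∉ p₁ ∧ D' ∉ p₂ := by
  obtain ⟨e, D, D', he, hass, hmul, hD, hD'⟩ := exists_unitPair873 hS hV hW
  exact ⟨e, D, D', he, hass, hmul, fun h => hD ((hc₁ D).mp h), fun h => hD' ((hc₂ D').mp h)⟩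

end Fermat.Agent.Ribet.H873

end
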