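import Fermat.Agent.Ribet.H873.UnitPairNode
import Fermat.Agent.Ribet.H132.InstA

/-!
# RIBET wall-p, I6 instantiation leaves INST-A + INST-B together (helper873)

`HasNodeUnitPair873 w B c n N` : the local ring `B_n` of the semistable chart `B` at the crossing
point `n` is a node ring (`I6.IsNode`, INST-A = `H132.exists_isNode_chart`) carrying a unit pair
of exponent `N` (`I6.IsUnitPair`, INST-B), for the SAME primes `c.pᵢ B_n` and uniformiser `w`.

`hasNodeUnitPair_of_chart873` : from `D D' = w ^ N` in `B`, `D ∉ c.p₁`, `D' ∉ c.p₂`.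
-/

set_option autoImplicit false
set_option linter.unusedSectionVars false
set_option linter.style.haveILetI false

noncomputable section

namespace Fermat.Agent.Ribet.H873

open Fermat.Agent.Ribet.H704 Fermat.Agent.A2 Fermat.Agent.A2.H849

section Def

variable {R F : Type*} [CommRing R] [Field F] [Algebra R F]

/-- The node ring `B_n` with its unit pair (INST-A + INST-B). -/
def HasNodeUnitPair873 (w : R) (B : Subalgebra R F) (c : SSChart w B) (n : Ideal B)
    [n.IsPrime] (N : ℕ) : Prop :=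
  ∃ (_ : IsNoetherianRing B) (_ : IsIntegrallyClosed B) (_ : IsFractionRing B F)
    (x y D D' : B),
    x ∈ c.p₂ ∧ x ∉ c.p₁ ∧ y ∈ c.p₁ ∧ y ∉ c.p₂ ∧ D ∉ c.p₁ ∧ D' ∉ c.p₂ ∧
    D * D' = algebraMap R B w ^ N ∧
    I6.IsNode (c.p₁.map (algebraMap B (locAt F n))) (c.p₂.map (algebraMap B (locAt F n)))
      (algebraMap B (locAt F n) (algebraMap R B w)) (algebraMap B (locAt F n) x)
      (algebraMap B (locAt F n) y) ∧
    I6.IsUnitPair (c.p₁.map (algebraMap B (locAt F n))) (c.p₂.map (algebraMap B (locAt F n)))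
      (algebraMap B (locAt F n) (algebraMap R B w)) (algebraMap B (locAt F n) D)
      (algebraMap B (locAt F n) D') N

end Def

section Chart

variable {R E F : Type*} [CommRing R] [IsDomain R] [IsDiscreteValuationRing R]
  [Field E] [CharZero E] [Algebra R E] [IsFractionRing R E]
  [Field F] [Algebra E F] [Algebra R F] [IsScalarTower R E F]

/-- **INST-A + INST-B (chart of wall A2).** -/
theorem hasNodeUnitPair_of_chart873 (w : R) (x₀ : F) (B : Subalgebra R F)
    (hC : Alg.ChartCtx E w x₀ B) (c : SSChart w B) (n : Ideal B) [n.IsPrime]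
    (h₁ : c.p₁ ≤ n) (h₂ : c.p₂ ≤ n) (D D' : B) (N : ℕ)
    (hmul : D * D' = algebraMap R B w ^ N) (hD : D ∉ c.p₁) (hD' : D' ∉ c.p₂) :
    HasNodeUnitPair873 w B c n N := by
  obtain ⟨hnoeth, hic, hfr, x, y, hx, hx', hy, hy', hnode⟩ :=
    Fermat.Agent.Ribet.H132.exists_isNode_chart (E := E) w x₀ B hC c n h₁ h₂
  haveI := c.prime₁
  haveI := c.prime₂
  exact ⟨hnoeth, hic, hfr, x, y, D, D', hx, hx', hy, hy', hD, hD', hmul, hnode,
    isUnitPair_locAt873 (F := F) c.p₁ c.p₂ n h₁ h₂ (algebraMap R B w) D D' N hmul hD hD'⟩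

end Chart

end Fermat.Agent.Ribet.H873

end
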