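import Fermat.Agent.Ribet.H873.UnitPair

/-!
# RIBET wall-p, INST-B (helper873), supplement: the unit pair WITH its `t`-expansion

`H873.exists_unitPair_cut873` (on main) hides the `t`-expansion of `D`.  The frame of the WILD
case (`H704.CoreOut.WildFrame`, field `hD₂`) and `H884.IsModUnit` need it:
`D = Δ(t)/Δ(t^q)`, i.e. `D · unitL E q = 1` (`unitL = Δ(t^q)/Δ(t)`, `S28/Defs`).

* `unitPair_coe873`            : `D, D'` with `D D' = q¹²`, `D ∉ w V∞`, `D' ∉ w V₀` and the
                                 `t`-expansions of `D`, `D'`;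
* `exists_unitPair_coe873`     : normalised (`D D' = w ^ (12 e)`), with the `t`-expansion of `D`;
* `exists_unitPair_cut_coe873` : cut form (`D ∉ p₁`, `D' ∉ p₂`) with the `t`-expansion of `D`
                                 and `D · unitL E q = 1`;
* `coeffMap_unitL'_mul_unitL873` : `Δ(t)/Δ(t^q) · unitL k q = 1` over any `k`;
* `unitL_mul_coeffMap873`      : over `ℚ̄`, `unitL ℚ̄ q · (D over ℚ̄) = 1`
                                 (the shape of `WildFrameStatement`).
-/

set_option autoImplicit false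
set_option synthInstance.maxHeartbeats 400000
set_option maxHeartbeats 1600000
set_option linter.unusedSectionVars false

noncomputable section

namespace Fermat.Agent.Ribet.H873

open ModularCurve HahnSeries
open Fermat.Agent.A2.Mod Fermat.Agent.S28

variable {P : ValuationSubring Qb} {E : IntermediateField ℚ Qb} {M q : ℕ} [NeZero M] [NeZero q]

/-- **INST-B with `t`-expansions.** -/
theorem unitPair_coe873 {w : RE P E} (hS : Setting P E M q w)
    {V : ValuationSubring (FE E (M * q))} {W : FE E (M * q) ≃ₐ[E] FE E (M * q)}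
    (hV : IsVinf P E (M * q) V) (hW : IsFricke E (M * q) W) :
    ∃ D D' : FE E (M * q),
      (D : LaurentSeries E) = coeffMap (Int.castRingHom E) (H589.unitL' q) ∧
      (D' : LaurentSeries E) =
        coeffMap (Int.castRingHom E) ((q : LaurentSeries ℤ) ^ 12 * unitL ℤ q) ∧
      D ∈ chartAlg P E (M * q) (xE E M q) ∧ D' ∈ chartAlg P E (M * q) (xE E M q) ∧
      D * D' = cE P E (M * q) ((q : RE P E) ^ 12) ∧
      ¬ InW P E (M * q) V w D ∧
      ¬ InW P E (M * q) (V.comap (W : FE E (M * q) →+* FE E (M * q))) w D' := by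
  obtain ⟨D', D, hcD', hcD, hmul, hD', hD, hVu, hV0u, -⟩ :=
    Fermat.Agent.S36.H438.mu_package P E M q hS.q_prime
  have hc0 : algebraMap E (FE E (M * q)) ((q : E) ^ 12) ≠ 0 := by
    rw [Ne, map_eq_zero]
    exact pow_ne_zero 12 (Nat.cast_ne_zero.mpr (NeZero.ne q))
  have hD0 : D ≠ 0 := by
    rintro rfl
    rw [mul_zero] at hmul
    exact hc0 hmul.symm
  have hD'0 : D' ≠ 0 := by
    rintro rfl
    rw [zero_mul] at hmul
    exact hc0 hmul.symm
  refine ⟨D, D', hcD, hcD', hD, hD', ?_, ?_, ?_⟩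
  · rw [mul_comm D D', hmul, cE]
    congr 1
  · exact not_inW_of_inv_mem873 (cE_inv_not_mem873 hS.dvr hS.unif hV) hD0 (hVu V hV).2
  · exact not_inW_of_inv_mem873 (cE_inv_not_mem_comap873 hS.dvr hS.unif hV W) hD'0
      (hV0u V W hV hW).2

/-- the `t`-expansion `Δ(t)/Δ(t^q)` is the inverse of `unitL`. -/
theorem coeffMap_unitL'_mul_unitL873 (k : Type*) [CommRing k] (n : ℕ) [NeZero n] :
    coeffMap (Int.castRingHom k) (H589.unitL' n) * unitL k n = 1 := by
  have h := congrArg (coeffMap (Int.castRingHom k)) (Fermat.Agent.S36.H438.unitL_mul_unitL' n)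
  rw [map_mul, map_one, h88_coeffMap_unitL] at h
  rw [mul_comm]
  exact h

/-- **INST-B, normalised, with the `t`-expansion of `D`.** -/
theorem exists_unitPair_coe873 {w : RE P E} (hS : Setting P E M q w)
    {V : ValuationSubring (FE E (M * q))} {W : FE E (M * q) ≃ₐ[E] FE E (M * q)}
    (hV : IsVinf P E (M * q) V) (hW : IsFricke E (M * q) W) :
    ∃ (e : ℕ) (D D' : chartAlg P E (M * q) (xE E M q)), 0 < e ∧
      Associated ((q : ℕ) : RE P E) (w ^ e) ∧
      D * D' = algebraMap (RE P E) (chartAlg P E (M * q) (xE E M q)) w ^ (12 * e) ∧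
      ¬ InW P E (M * q) V w (D : FE E (M * q)) ∧
      ¬ InW P E (M * q) (V.comap (W : FE E (M * q) →+* FE E (M * q))) w
        (D' : FE E (M * q)) ∧
      ((D.1 : FE E (M * q)).1 = coeffMap (Int.castRingHom E) (H589.unitL' q)) := by
  haveI := hS.dvr
  obtain ⟨D₀, D₀', hcD, -, hD, hD', hmul, hDV, hD'V⟩ := unitPair_coe873 hS hV hW
  have hq0 : ((q : ℕ) : RE P E) ≠ 0 := Nat.cast_ne_zero.mpr (NeZero.ne q)
  obtain ⟨e, he⟩ := IsDiscreteValuationRing.associated_pow_irreducible hq0 hS.unif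
  have he0 : 0 < e := by
    rcases Nat.eq_zero_or_pos e with h0 | h0
    · exfalso
      rw [h0, pow_zero] at he
      exact not_isUnit_natCast873 hS.lies_over (he.symm.isUnit_iff.mp isUnit_one)
    · exact h0
  obtain ⟨ε, hε⟩ := he
  -- `q * ε = w ^ e`
  set B := chartAlg P E (M * q) (xE E M q) with hB
  refine ⟨e, ⟨D₀, hD⟩, algebraMap (RE P E) B ((ε : RE P E) ^ 12) * ⟨D₀', hD'⟩,
    he0, ⟨ε, hε⟩, ?_, hDV, ?_, hcD⟩
  · apply Subtype.ext
    show D₀ * (algebraMap (RE P E) (FE E (M * q)) ((ε : RE P E) ^ 12) * D₀') =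
      (algebraMap (RE P E) (FE E (M * q)) w) ^ (12 * e)
    have hcE : cE P E (M * q) ((q : RE P E) ^ 12) =
        algebraMap (RE P E) (FE E (M * q)) ((q : RE P E) ^ 12) := rfl
    rw [mul_left_comm, hmul, hcE, ← map_mul, ← map_pow]
    congr 1
    rw [pow_mul', ← hε]
    ring
  · intro h
    apply hD'V
    -- divide by the unit `ε ^ 12`
    have hεV : algebraMap (RE P E) (FE E (M * q)) (((ε⁻¹ : (RE P E)ˣ) : RE P E) ^ 12) ∈
        V.comap (W : FE E (M * q) →+* FE E (M * q)) := by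
      rw [ValuationSubring.mem_comap]
      have h1 : (W : FE E (M * q) →+* FE E (M * q))
          (algebraMap (RE P E) (FE E (M * q)) (((ε⁻¹ : (RE P E)ˣ) : RE P E) ^ 12)) =
          algebraMap E (FE E (M * q)) ((((ε⁻¹ : (RE P E)ˣ) : RE P E) ^ 12 : RE P E) : E) :=
        W.commutes _
      rw [h1]
      exact (Fermat.Agent.A2.Mod.H708.algebraMap_mem_iff_of_isVinf hV _).mpr (Subtype.mem _)
    have h2 := (V.comap (W : FE E (M * q) →+* FE E (M * q))).mul_mem _ _ hεV h
    have h3 : algebraMap (RE P E) (FE E (M * q)) (((ε⁻¹ : (RE P E)ˣ) : RE P E) ^ 12) *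
        (((algebraMap (RE P E) B ((ε : RE P E) ^ 12) * ⟨D₀', hD'⟩ : B) : FE E (M * q)) *
          (cE P E (M * q) w)⁻¹) = D₀' * (cE P E (M * q) w)⁻¹ := by
      have h4 : algebraMap (RE P E) (FE E (M * q)) (((ε⁻¹ : (RE P E)ˣ) : RE P E) ^ 12) *
          algebraMap (RE P E) (FE E (M * q)) ((ε : RE P E) ^ 12) = 1 := by
        rw [← map_mul, ← mul_pow, Units.inv_mul, one_pow, map_one]
      show algebraMap (RE P E) (FE E (M * q)) (((ε⁻¹ : (RE P E)ˣ) : RE P E) ^ 12) *
        ((algebraMap (RE P E) (FE E (M * q)) ((ε : RE P E) ^ 12) * D₀') *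
          (cE P E (M * q) w)⁻¹) = _
      rw [← mul_assoc, ← mul_assoc, h4, one_mul]
    rw [h3] at h2
    exact h2

/-- **INST-B, cut form, with the `t`-expansion of `D`.**  For the components
`p₁ = B ∩ w V∞`, `p₂ = B ∩ w V₀` of the chart `B = chartAlg x`: `D · D' = w ^ (12 e)`,
`D ∉ p₁`, `D' ∉ p₂`, and `D = Δ(t)/Δ(t^q)`, i.e. `D · unitL E q = 1`. -/
theorem exists_unitPair_cut_coe873 {w : RE P E} (hS : Setting P E M q w)
    {V : ValuationSubring (FE E (M * q))} {W : FE E (M * q) ≃ₐ[E] FE E (M * q)}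
    (hV : IsVinf P E (M * q) V) (hW : IsFricke E (M * q) W)
    (p₁ p₂ : Ideal (chartAlg P E (M * q) (xE E M q)))
    (hc₁ : IsCut P E (M * q) w V (chartAlg P E (M * q) (xE E M q)) p₁)
    (hc₂ : IsCut P E (M * q) w (V.comap (W : FE E (M * q) →+* FE E (M * q)))
      (chartAlg P E (M * q) (xE E M q)) p₂) :
    ∃ (e : ℕ) (D D' : chartAlg P E (M * q) (xE E M q)), 0 < e ∧
      Associated ((q : ℕ) : RE P E) (w ^ e) ∧
      D * D' = algebraMap (RE P E) (chartAlg P E (M * q) (xE E M q)) w ^ (12 * e) ∧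
      D ∉ p₁ ∧ D' ∉ p₂ ∧
      ((D.1 : FE E (M * q)).1 = coeffMap (Int.castRingHom E) (H589.unitL' q)) ∧
      (D.1 : FE E (M * q)).1 * unitL E q = 1 := by
  obtain ⟨e, D, D', he, hass, hmul, hD, hD', hc⟩ := exists_unitPair_coe873 hS hV hW
  refine ⟨e, D, D', he, hass, hmul, fun h => hD ((hc₁ D).mp h), fun h => hD' ((hc₂ D').mp h),
    hc, ?_⟩
  rw [hc]
  exact coeffMap_unitL'_mul_unitL873 E q

/-- Over `ℚ̄`: if `D₂ ∈ F_E` has the `t`-expansion `Δ(t)/Δ(t^q)`, then
`unitL ℚ̄ q · (D₂ over ℚ̄) = 1` (the shape of `H704.CoreOut.WildFrameStatement`). -/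
theorem unitL_mul_coeffMap873 {D₂ : LaurentSeries E} (h : D₂ * unitL E q = 1) :
    unitL Qb q * coeffMap (algebraMap E Qb) D₂ = 1 := by
  have h1 := congrArg (coeffMap (algebraMap E Qb)) h
  rw [map_mul, map_one, h88_coeffMap_unitL] at h1
  rw [mul_comm]
  exact h1

end Fermat.Agent.Ribet.H873

end
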