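import Fermat.Agent.Ribet.H873.UnitPair
import Fermat.Agent.Ribet.H873.UnitPairChart

/-!
# RIBET wall-p, I6 instantiation leaf INST-B, part 4 (helper873): the node rings of the modular
# chart with their unit pairs

Setting of `A2/Mod` (level `Mq`, `P | q`, `R_E` a DVR with uniformiser `w`), `B = chartAlg x`,
`x = j j_q`.  For a semistable structure `c : SSChart w B` whose components are the cuts
`c.p₁ = B ∩ w V∞`, `c.p₂ = B ∩ w V₀` (this is what `A2.Mod.S1Statement` produces), at EVERY
crossing point `n ⊇ c.p₁ + c.p₂` the local ring `B_n ⊆ F` is a node ring with the unit pair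
`D = Δ(t)/Δ(t^q)`, `D' = ε¹² q¹² Δ(t^q)/Δ(t)` of exponent `12 e`, where `q ε = w ^ e`
(`e` = ramification index of `R_E` over `ℤ_(q)`; `12 e` is prime to `q` iff `q ≥ 5` and `E` is
tame at `P`).

* `hasNodeUnitPair873`           : the statement above (`HasNodeUnitPair873`, INST-A + INST-B);
* `exists_ssChart_cut873`        : S1 + S2 + S3 (+ good reduction at level `M`) give such a `c`
                                   (= `A2.Mod.nonempty_ssChart`, remembering the cuts).
-/

set_option autoImplicit false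
set_option synthInstance.maxHeartbeats 400000
set_option maxHeartbeats 1600000
set_option linter.unusedSectionVars false
set_option linter.style.haveILetI false

noncomputable section

namespace Fermat.Agent.Ribet.H873

open Fermat.Agent.A2.Mod

variable {P : ValuationSubring Qb} {E : IntermediateField ℚ Qb} {M q : ℕ} [NeZero M]
  [NeZero q]

/-- **INST-A + INST-B, modular.** -/
theorem hasNodeUnitPair873 {w : RE P E} (hS : Setting P E M q w)
    {V : ValuationSubring (FE E (M * q))} {W : FE E (M * q) ≃ₐ[E] FE E (M * q)}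
    (hV : IsVinf P E (M * q) V) (hW : IsFricke E (M * q) W)
    (hC : Fermat.Agent.A2.Alg.ChartCtx E w (xE E M q) (chartAlg P E (M * q) (xE E M q)))
    (c : Fermat.Agent.A2.SSChart w (chartAlg P E (M * q) (xE E M q)))
    (hc₁ : IsCut P E (M * q) w V (chartAlg P E (M * q) (xE E M q)) c.p₁)
    (hc₂ : IsCut P E (M * q) w (V.comap (W : FE E (M * q) →+* FE E (M * q)))
      (chartAlg P E (M * q) (xE E M q)) c.p₂)
    (n : Ideal (chartAlg P E (M * q) (xE E M q))) [n.IsPrime] (h₁ : c.p₁ ≤ n) (h₂ : c.p₂ ≤ n) :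
    ∃ e : ℕ, 0 < e ∧ Associated ((q : ℕ) : RE P E) (w ^ e) ∧
      HasNodeUnitPair873 w (chartAlg P E (M * q) (xE E M q)) c n (12 * e) := by
  haveI := hS.dvr
  obtain ⟨e, D, D', he, hass, hmul, hD, hD'⟩ :=
    exists_unitPair_cut873 hS hV hW c.p₁ c.p₂ hc₁ hc₂
  exact ⟨e, he, hass,
    hasNodeUnitPair_of_chart873 (E := E) w (xE E M q) _ hC c n h₁ h₂ D D' (12 * e) hmul hD hD'⟩

/-- `A2.Mod.nonempty_ssChart` for the finite chart, remembering that the components are the cuts
of `V∞` and `V₀`. -/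
theorem exists_ssChart_cut873 (w : RE P E) (hS : Setting P E M q w)
    (hS1 : S1Statement P E M q w) (hS2 : S2Statement P E M q w) (hS3 : S3Statement P E M q w)
    (VM : ValuationSubring (FE E M)) (V : ValuationSubring (FE E (M * q)))
    (W : FE E (M * q) ≃ₐ[E] FE E (M * q))
    (hVM : IsVinf P E M VM) (hV : IsVinf P E (M * q) V) (hW : IsFricke E (M * q) W)
    (hgood : GoodRedAt P E M w VM (jE E M 1 (one_dvd _))) :
    ∃ c : Fermat.Agent.A2.SSChart w (chartAlg P E (M * q) (xE E M q)),
      IsCut P E (M * q) w V (chartAlg P E (M * q) (xE E M q)) c.p₁ ∧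
      IsCut P E (M * q) w (V.comap (W : FE E (M * q) →+* FE E (M * q)))
        (chartAlg P E (M * q) (xE E M q)) c.p₂ := by
  have hy : IsCoordPair E M q (jE E M 1 (one_dvd _)) (xE E M q) := Or.inl ⟨rfl, rfl⟩
  obtain ⟨p₁, p₂, hc₁, hc₂, hp₁, hp₂, h₁₂, h₂₁, hinf⟩ :=
    hS1 hS V W hV hW (xE E M q) (Or.inl rfl)
  obtain ⟨hn₁, hn₂⟩ := hS2 hS VM V W hVM hV hW _ _ hy hgood p₁ p₂ hc₁ hc₂
  have hrad := hS3 hS VM V W hVM hV hW _ _ hy hgood p₁ p₂ hc₁ hc₂
  exact ⟨{ p₁ := p₁
           p₂ := p₂
           prime₁ := hp₁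
           prime₂ := hp₂
           ne := fun h => h₁₂ (h ▸ le_refl p₁)
           not_le₁₂ := h₁₂
           not_le₂₁ := h₂₁
           inf_eq := hinf
           normal₁ := hn₁
           normal₂ := hn₂
           transversal := hrad }, hc₁, hc₂⟩

end Fermat.Agent.Ribet.H873

end
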