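import Fermat.Agent.Ribet.H704.I6Spec
import Fermat.Agent.A2.H849.Hartogs

/-!
# RIBET wall-p, I6 instantiation leaf INST-B, part 3 (helper873): the unit pair in the node rings
# (abstract adapter, Mathlib + `I6Spec` + `A2.H849.locAt` only)

`isUnitPair_locAt873`: `D D' = w ^ N` in `B`, `D ∉ p₁`, `D' ∉ p₂`, `n ⊇ p₁ + p₂` prime
⟹ `I6.IsUnitPair` in the local ring `B_n = A2.H849.locAt F n`, for the primes `pᵢ B_n` and the
uniformiser `w` of INST-A (`H132.exists_isNode_locAt`, `H132.exists_isNode_chart`; there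
`B` is a chart, `pᵢ = c.pᵢ` the components of `c : SSChart w B`).

The modular input (`D = Δ(t)/Δ(t^q)`, `D' = ε¹² q¹² Δ(t^q)/Δ(t)` in the chart of level `Mq`) is
`H873.exists_unitPair_cut873` (`Ribet/H873/UnitPair.lean`).
-/

set_option autoImplicit false

noncomputable section

namespace Fermat.Agent.Ribet.H873

open Fermat.Agent.Ribet.H704 Fermat.Agent.A2.H849

variable {B : Type*} [CommRing B] [IsDomain B]
variable {F : Type*} [Field F] [Algebra B F] [IsFractionRing B F]

/-- a prime `p ⊆ n` is the contraction of its extension to `B_n`. -/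
theorem mem_of_algebraMap_mem_map873 (p n : Ideal B) [hp : p.IsPrime] [n.IsPrime] (h : p ≤ n)
    {b : B} (hb : algebraMap B (locAt F n) b ∈ p.map (algebraMap B (locAt F n))) : b ∈ p := by
  have hdisj : Disjoint (n.primeCompl : Set B) (p : Set B) := by
    rw [Set.disjoint_left]
    intro a ha hap
    exact ha (h hap)
  have h1 := IsLocalization.under_map_of_isPrime_disjoint n.primeCompl (locAt F n) hp hdisj
  have h2 : b ∈ (p.map (algebraMap B (locAt F n))).under B := hb
  rwa [h1] at h2

/-- **INST-B (abstract adapter).** -/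
theorem isUnitPair_locAt873 (p₁ p₂ n : Ideal B) [p₁.IsPrime] [p₂.IsPrime] [n.IsPrime]
    (h₁ : p₁ ≤ n) (h₂ : p₂ ≤ n) (w D D' : B) (N : ℕ) (hmul : D * D' = w ^ N)
    (hD : D ∉ p₁) (hD' : D' ∉ p₂) :
    I6.IsUnitPair (p₁.map (algebraMap B (locAt F n))) (p₂.map (algebraMap B (locAt F n)))
      (algebraMap B (locAt F n) w) (algebraMap B (locAt F n) D)
      (algebraMap B (locAt F n) D') N where
  mul_eq := by rw [← map_mul, hmul, map_pow]
  hD := fun h => hD (mem_of_algebraMap_mem_map873 p₁ n h₁ h)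
  hD' := fun h => hD' (mem_of_algebraMap_mem_map873 p₂ n h₂ h)

end Fermat.Agent.Ribet.H873

end
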